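import Fermat.Statements.S02

set_option autoImplicit false
open FreyPackage

namespace Fermat.Agent.S02

/-- Coprime case with `b` even and `a` odd. -/
theorem frey_of_coprime_even (a b c : ℤ) (ha : a ≠ 0) (hb : b ≠ 0) (hc : c ≠ 0) (p : ℕ)
    (pp : p.Prime) (hp5 : 5 ≤ p) (H : a ^ p + b ^ p = c ^ p) (hg : Int.gcd a b = 1)
    (hb2 : (2 : ℤ) ∣ b) : Nonempty FreyPackage := by
  have hp_odd : Odd p := pp.odd_of_ne_two (by omega)
  have ha_odd : ¬ (2 : ℤ) ∣ a := by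
    intro h2a
    have : (2 : ℤ) ∣ (Int.gcd a b : ℤ) := Int.dvd_coe_gcd h2a hb2
    rw [hg] at this
    norm_num at this
  have ha_mod : a % 4 = 1 ∨ a % 4 = 3 := by omega
  rcases ha_mod with h1 | h3
  · -- negate everything
    refine ⟨{ a := -a, b := -b, c := -c, ha0 := neg_ne_zero.2 ha, hb0 := neg_ne_zero.2 hb,
              hc0 := neg_ne_zero.2 hc, p := p, pp := pp, hp5 := hp5, hFLT := ?_, hgcdab := ?_,
              ha4 := ?_, hb2 := ?_ }⟩
    · rw [hp_odd.neg_pow, hp_odd.neg_pow, hp_odd.neg_pow, ← H]; ring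
    · rw [← Int.coe_gcd, Int.neg_gcd, Int.gcd_neg, hg]; rfl
    · have : ((-a : ℤ) : ZMod 4) = ((3 : ℤ) : ZMod 4) := by
        rw [ZMod.intCast_eq_intCast_iff_dvd_sub]
        omega
      simpa using this
    · rw [ZMod.intCast_zmod_eq_zero_iff_dvd]
      exact (dvd_neg).2 hb2
  · refine ⟨{ a := a, b := b, c := c, ha0 := ha, hb0 := hb,
              hc0 := hc, p := p, pp := pp, hp5 := hp5, hFLT := H, hgcdab := ?_,
              ha4 := ?_, hb2 := ?_ }⟩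
    · rw [← Int.coe_gcd, hg]; rfl
    · have : ((a : ℤ) : ZMod 4) = ((3 : ℤ) : ZMod 4) := by
        rw [ZMod.intCast_eq_intCast_iff_dvd_sub]
        omega
      simpa using this
    · rw [ZMod.intCast_zmod_eq_zero_iff_dvd]
      exact hb2

theorem gcd_eq_one_of_pow_add (a b c : ℤ) (p : ℕ) (hp : p ≠ 0) (H : a ^ p + b ^ p = c ^ p)
    (hg : Int.gcd a b = 1) : Int.gcd a c = 1 := by
  have h1 : IsCoprime a b := Int.isCoprime_iff_gcd_eq_one.2 hg
  rw [← Int.isCoprime_iff_gcd_eq_one]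
  have h2 : IsCoprime (a ^ p) (b ^ p) := h1.pow
  have h3 : IsCoprime (a ^ p) (c ^ p) := by
    rw [← H]
    have := h2.add_mul_left_right 1
    simpa [add_comm] using this
  exact (IsCoprime.pow_iff (Nat.pos_of_ne_zero hp) (Nat.pos_of_ne_zero hp)).1 h3

/-- Coprime case. -/
theorem frey_of_coprime (a b c : ℤ) (ha : a ≠ 0) (hb : b ≠ 0) (hc : c ≠ 0) (p : ℕ)
    (pp : p.Prime) (hp5 : 5 ≤ p) (H : a ^ p + b ^ p = c ^ p) (hg : Int.gcd a b = 1) :
    Nonempty FreyPackage := by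
  have hp_odd : Odd p := pp.odd_of_ne_two (by omega)
  have hp0 : p ≠ 0 := pp.ne_zero
  by_cases hb2 : (2 : ℤ) ∣ b
  · exact frey_of_coprime_even a b c ha hb hc p pp hp5 H hg hb2
  by_cases ha2 : (2 : ℤ) ∣ a
  · exact frey_of_coprime_even b a c hb ha hc p pp hp5 (by rw [← H]; ring)
      (by rw [Int.gcd_comm]; exact hg) ha2
  -- both odd, so c even
  have hc2 : (2 : ℤ) ∣ c := by
    have ha' : Odd a := Int.not_even_iff_odd.1 (fun h => ha2 (even_iff_two_dvd.1 h))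
    have hb' : Odd b := Int.not_even_iff_odd.1 (fun h => hb2 (even_iff_two_dvd.1 h))
    have : Even (c ^ p) := by
      rw [← H]
      exact (ha'.pow).add_odd (hb'.pow)
    exact even_iff_two_dvd.1 ((Int.even_pow.1 this).1)
  have hgac : Int.gcd a c = 1 := gcd_eq_one_of_pow_add a b c p hp0 H hg
  refine frey_of_coprime_even a (-c) (-b) ha (neg_ne_zero.2 hc) (neg_ne_zero.2 hb) p pp hp5 ?_ ?_ ?_
  · rw [hp_odd.neg_pow, hp_odd.neg_pow, ← H]; ring
  · rw [Int.gcd_neg]; exact hgac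
  · exact (dvd_neg).2 hc2

theorem result (a b c : ℤ) (ha : a ≠ 0) (hb : b ≠ 0) (hc : c ≠ 0) (p : ℕ) (pp : p.Prime) (hp5 : 5 ≤ p) (H : a ^ p + b ^ p = c ^ p) : Nonempty FreyPackage := by
  have hp0 : p ≠ 0 := pp.ne_zero
  set d : ℕ := Int.gcd a b with hd
  have hdpos : 0 < d := Int.gcd_pos_of_ne_zero_left b ha
  have hd0 : (d : ℤ) ≠ 0 := by exact_mod_cast hdpos.ne'
  obtain ⟨a', ha'⟩ : (d : ℤ) ∣ a := Int.gcd_dvd_left a b
  obtain ⟨b', hb'⟩ : (d : ℤ) ∣ b := Int.gcd_dvd_right a b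
  have hdc : (d : ℤ) ∣ c := by
    rw [← Int.pow_dvd_pow_iff hp0, ← H]
    exact dvd_add (pow_dvd_pow_of_dvd ⟨a', ha'⟩ p) (pow_dvd_pow_of_dvd ⟨b', hb'⟩ p)
  obtain ⟨c', hc'⟩ := hdc
  have ha'0 : a' ≠ 0 := by rintro rfl; simp at ha'; exact ha ha'
  have hb'0 : b' ≠ 0 := by rintro rfl; simp at hb'; exact hb hb'
  have hc'0 : c' ≠ 0 := by rintro rfl; simp at hc'; exact hc hc'
  have H' : a' ^ p + b' ^ p = c' ^ p := by
    have : (d : ℤ) ^ p * (a' ^ p + b' ^ p) = (d : ℤ) ^ p * c' ^ p := by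
      rw [mul_add, ← mul_pow, ← mul_pow, ← mul_pow, ← ha', ← hb', ← hc', H]
    exact mul_left_cancel₀ (pow_ne_zero p hd0) this
  have hg' : Int.gcd a' b' = 1 := by
    have h := Int.gcd_mul_left (d : ℤ) a' b'
    rw [← ha', ← hb', ← hd] at h
    have h2 : d * 1 = d * Int.gcd a' b' := by simpa using h
    exact (Nat.eq_of_mul_eq_mul_left hdpos h2).symm
  exact frey_of_coprime a' b' c' ha'0 hb'0 hc'0 p pp hp5 H' hg'

end Fermat.Agent.S02
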