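import Fermat.Statements.S05
import Fermat.Agent.S05.FreyData
import Fermat.Agent.S05.Core

set_option autoImplicit false
open WeierstrassCurve WeierstrassCurve.Affine WeierstrassCurve.Affine.Point
open CuspForm ModularFormClass UpperHalfPlane
open FreyPackage

namespace Fermat.Agent.S05

theorem result (P : FreyPackage) {q : ℕ} (hq : q.Prime) (hq2 : q ≠ 2) (hqp : q ≠ P.p) : P.GaloisRepUnramifiedAt q := by
  intro A hA σ hσ x
  have hvq : A.valuation (q : AlgebraicClosure ℚ) < 1 := hA
  obtain ⟨e, al, be, hf, he, hbe, halbe, hal0, hal⟩ :=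
    frey_local_data P A.valuation hq hq2 hvq
  have hp2 : P.p ≠ 2 := by have := P.hp5; omega
  have key := core P.freyCurve A σ hσ P.p P.pp hp2 (frey_val_p P A.valuation hq hqp hvq)
    (frey_val_two A.valuation hq hq2 hvq) (frey_isIntegralW P A.valuation hq hq2 hvq)
    e al be hf he hbe halbe hal0 hal x.1 (by
      have := x.2
      rw [Submodule.mem_torsionBy_iff] at this
      rw [Nat.cast_smul_eq_nsmul] at this
      exact this)
  exact Subtype.ext key

end Fermat.Agent.S05
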