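import Fermat.Statements.S07
import Fermat.Prelude.Thm_ModularForm_sturm_bound_Gamma0
import Fermat.Prelude.Thm_CongruenceSubgroup_one_mem_strictPeriods_Gamma0

set_option autoImplicit false
open WeierstrassCurve WeierstrassCurve.Affine WeierstrassCurve.Affine.Point
open CuspForm ModularFormClass UpperHalfPlane
open ModularForm
open scoped MatrixGroups

namespace Fermat.Agent.S07

/-- The first column mod 2 of a matrix in `SL(2, ℤ)`. -/
def col (A : SL(2, ℤ)) : ZMod 2 × ZMod 2 := ((A 0 0 : ZMod 2), (A 1 0 : ZMod 2))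

theorem col_eq_iff (A B : SL(2, ℤ)) :
    col A = col B ↔ A⁻¹ * B ∈ CongruenceSubgroup.Gamma0 2 := by
  rw [CongruenceSubgroup.Gamma0_mem]
  have hA := A.det_coe
  have hB := B.det_coe
  rw [Matrix.det_fin_two] at hA hB
  have hA2 : ((A 0 0 : ZMod 2)) * (A 1 1 : ZMod 2) - (A 0 1 : ZMod 2) * (A 1 0 : ZMod 2) = 1 := by
    have := congrArg (Int.cast : ℤ → ZMod 2) hA
    push_cast at this
    exact this
  have hB2 : ((B 0 0 : ZMod 2)) * (B 1 1 : ZMod 2) - (B 0 1 : ZMod 2) * (B 1 0 : ZMod 2) = 1 := by
    have := congrArg (Int.cast : ℤ → ZMod 2) hB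
    push_cast at this
    exact this
  have hentry : ((A⁻¹ * B) 1 0 : ℤ) = - A 1 0 * B 0 0 + A 0 0 * B 1 0 := by
    rw [Matrix.SpecialLinearGroup.coe_mul, Matrix.SpecialLinearGroup.coe_inv,
      Matrix.adjugate_fin_two, Matrix.mul_apply]
    simp [Fin.sum_univ_two]
  rw [hentry]
  push_cast
  unfold col
  rw [Prod.mk.injEq]
  generalize (A 0 0 : ZMod 2) = a at *
  generalize (A 0 1 : ZMod 2) = b at *
  generalize (A 1 0 : ZMod 2) = c at *
  generalize (A 1 1 : ZMod 2) = d at *
  generalize (B 0 0 : ZMod 2) = a' at *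
  generalize (B 0 1 : ZMod 2) = b' at *
  generalize (B 1 0 : ZMod 2) = c' at *
  generalize (B 1 1 : ZMod 2) = d' at *
  clear hA hB hentry
  revert a b c d a' b' c' d'
  decide

theorem gamma0_two_index_le : (CongruenceSubgroup.Gamma0 2).index ≤ 4 := by
  classical
  let φ : SL(2, ℤ) ⧸ CongruenceSubgroup.Gamma0 2 → ZMod 2 × ZMod 2 :=
    Quotient.lift col (fun A B h => by
      rw [col_eq_iff]
      exact QuotientGroup.leftRel_apply.mp h)
  have hφ : Function.Injective φ := by
    intro x y
    induction x using QuotientGroup.induction_on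
    induction y using QuotientGroup.induction_on
    intro h
    rw [QuotientGroup.eq]
    exact (col_eq_iff _ _).mp h
  have := Nat.card_le_card_of_injective φ hφ
  simpa [Subgroup.index, Nat.card_prod] using this

theorem result (f : CuspForm (CongruenceSubgroup.Gamma0 2) 2) : f = 0 := by
  have hmf : (f : ModularForm (CongruenceSubgroup.Gamma0 2) 2) = 0 := by
    apply ModularForm.sturm_bound_Gamma0 2
    intro n hn
    have hidx := gamma0_two_index_le
    have hn0 : n = 0 := by
      have h2 : ((2 : ℤ) * ((CongruenceSubgroup.Gamma0 2).index : ℤ)).toNat ≤ 8 := by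
        omega
      have : ((2 : ℤ) * ((CongruenceSubgroup.Gamma0 2).index : ℤ)).toNat / 12 = 0 := by
        omega
      omega
    subst hn0
    exact CuspFormClass.qExpansion_coeff_zero (k := 2) f one_pos
      (CongruenceSubgroup.one_mem_strictPeriods_Gamma0 2)
  ext z
  have := congrArg (fun g : ModularForm (CongruenceSubgroup.Gamma0 2) 2 => g z) hmf
  simpa using this

end Fermat.Agent.S07
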