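import Fermat.Statements.S10
import Fermat.Agent.Kummer.Final
import Fermat.Agent.Kummer.KLData5
import Fermat.Agent.Kummer.KLData7
import Fermat.Agent.Kummer.KLData13
import Fermat.Agent.Kummer.PID7
import Fermat.Agent.Kummer.PID13

set_option autoImplicit false
open WeierstrassCurve WeierstrassCurve.Affine WeierstrassCurve.Affine.Point
open CuspForm ModularFormClass UpperHalfPlane
open FreyPackage

namespace Fermat.Agent.S10

set_option backward.isDefEq.respectTransparency false in
theorem result (P : FreyPackage) (hp : P.p = 5 ∨ P.p = 7 ∨ P.p = 13) : ¬ HasGaloisStableCofixedLine (K := AlgebraicClosure ℚ) ℚ P.freyCurve P.p := by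
  exfalso
  have hab : IsCoprime P.a P.b :=
    (gcd_isUnit_iff P.a P.b).mp (by rw [P.hgcdab]; exact isUnit_one)
  have h := P.hFLT
  rcases hp with hp | hp | hp
  · rw [hp] at h
    have hprime : Fact (Nat.Prime 5) := ⟨by norm_num⟩
    exact Fermat.Agent.Kummer.flt_of_pid_of_indep 5 (Or.inl rfl)
      (CyclotomicField 5 ℚ) (IsCyclotomicExtension.Rat.five_pid _) Fermat.Agent.Kummer.indep_five
      P.a P.b P.c P.ha0 P.hb0 P.hc0 hab h
  · rw [hp] at h
    have hprime : Fact (Nat.Prime 7) := ⟨by norm_num⟩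
    exact Fermat.Agent.Kummer.flt_of_pid_of_indep 7 (Or.inr (Or.inl rfl))
      (CyclotomicField 7 ℚ) (Fermat.Agent.Kummer.pid_seven _) Fermat.Agent.Kummer.indep_seven
      P.a P.b P.c P.ha0 P.hb0 P.hc0 hab h
  · rw [hp] at h
    have hprime : Fact (Nat.Prime 13) := ⟨by norm_num⟩
    exact Fermat.Agent.Kummer.flt_of_pid_of_indep 13 (Or.inr (Or.inr (Or.inr rfl)))
      (CyclotomicField 13 ℚ) (Fermat.Agent.Kummer.pid_thirteen _)
      Fermat.Agent.Kummer.indep_thirteen P.a P.b P.c P.ha0 P.hb0 P.hc0 hab h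

end Fermat.Agent.S10
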