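import Fermat.Statements.S11
import Fermat.Agent.Kummer.Final
import Fermat.Agent.Kummer.KLData11
import Fermat.Agent.Kummer.PID11

set_option autoImplicit false
open WeierstrassCurve WeierstrassCurve.Affine WeierstrassCurve.Affine.Point
open CuspForm ModularFormClass UpperHalfPlane
open FreyPackage

namespace Fermat.Agent.S11

set_option backward.isDefEq.respectTransparency false in
theorem result (P : FreyPackage) (hp : P.p = 11) : ¬ HasGaloisStableCofixedLine (K := AlgebraicClosure ℚ) ℚ P.freyCurve P.p := by
  exfalso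
  have hab : IsCoprime P.a P.b :=
    (gcd_isUnit_iff P.a P.b).mp (by rw [P.hgcdab]; exact isUnit_one)
  have h := P.hFLT
  rw [hp] at h
  have hprime : Fact (Nat.Prime 11) := ⟨by norm_num⟩
  exact Fermat.Agent.Kummer.flt_of_pid_of_indep 11 (Or.inr (Or.inr (Or.inl rfl)))
    (CyclotomicField 11 ℚ) (Fermat.Agent.Kummer.pid_eleven _) Fermat.Agent.Kummer.indep_eleven
    P.a P.b P.c P.ha0 P.hb0 P.hc0 hab h

end Fermat.Agent.S11
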