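import Fermat.Statements.S13
import Fermat.Agent.S05
import Fermat.Agent.S13.Assembly
import Fermat.Agent.S13.SmallP
import Fermat.Agent.S13.FreyTorsion
import Fermat.Agent.S13.AtTwoFinal
import Fermat.Agent.S13.NoRatTorsionFinal
import Fermat.Agent.S13.AtPFinal
import Fermat.Agent.S13.Unramified

set_option autoImplicit false
open WeierstrassCurve WeierstrassCurve.Affine WeierstrassCurve.Affine.Point
open CuspForm ModularFormClass UpperHalfPlane

namespace Fermat.Agent.S13

theorem result (P : FreyPackage) (hred : ¬ GaloisRepIsIrreducible (K := AlgebraicClosure ℚ) ℚ P.freyCurve P.p) : HasGaloisStableCofixedLine (K := AlgebraicClosure ℚ) ℚ P.freyCurve P.p := by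
  have hp : 17 ≤ P.p := frey_p_ge_seventeen P
  exact s13_of_parts P (frey_torsion_nontrivial P) (frey_torsion_card P)
    (fun A hA σ hσ => frey_inertia_two P A hA hσ)
    (frey_no_rational_torsion P (by omega))
    (frey_inertia_p P)
    eq_top_of_inertia_le
    (fun q hq hq2 hqp => Fermat.Agent.S05.result P hq hq2 hqp)
    hred

end Fermat.Agent.S13
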