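-- S14: ExtVanishingCts p for every prime p ≥ 3 (no admissible non-split extension of ℤ/p by μ_p).
-- Route: Thaine's relation + two Dirichlet densities (no class field theory);
-- see NOTES/routes/S14_helper1_w3_thaine.md.
import Fermat.Statements.S14
import Fermat.Agent.S14.Defs
import Fermat.Agent.S14.GaloisSideFinal
import Fermat.Agent.S14.CoreAlg
import Fermat.Agent.S14.CoreThree
import Fermat.Agent.S14.Thaine
import Fermat.Agent.S14.Density
import Fermat.Agent.S14.Local
import Fermat.Agent.S14.UnitEigenMain

set_option autoImplicit false
open ExtCitation

namespace Fermat.Agent.S14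

/-- the cyclotomic core for every prime `p ≥ 3`. -/
theorem coreStatement_all (p : ℕ) [hp : Fact p.Prime] (h3 : 3 ≤ p)
    (K : Type) [Field K] [NumberField K] [IsCyclotomicExtension {p} ℚ K] : CoreStatement p K := by
  by_cases h : p = 3
  · exact coreStatement_of_eq_three p h K
  · have h5 : 5 ≤ p := by
      rcases Nat.lt_or_ge p 5 with h4 | h5
      · exfalso
        have h4' : p = 4 := by omega
        rw [h4'] at hp
        exact absurd hp.out (by decide)
      · exact h5
    exact coreStatement_of_pieces p K (thaineStatement p K) (densityStatement p h3 K)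
      (localStatement p K) (UnitEigen.unitStatement_of_five_le p K h5)

theorem result {p : ℕ} [Fact p.Prime] (h3 : 3 ≤ p) :
    ExtCitation.ExtVanishingCts p :=
  extVanishingCts_of p (galoisSide p h3) (fun K _ _ _ => coreStatement_all p h3 K)

end Fermat.Agent.S14
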