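-- Statement S16 (row 15): the index of the Eisenstein ideal in the Hecke algebra of weight 2 and prime level.
import Fermat.Statements.S16
import Fermat.Agent.S16.StepA
import Fermat.Agent.S16.UpperFinal
import Fermat.Agent.S16.LowerFinal
import Fermat.Agent.S16.Lift

set_option autoImplicit false
open ModularCurve CuspForm
open ModularCurve

namespace Fermat.Agent.S16

theorem result
    (p : ℕ) [Fact p.Prime] :
    Nat.card (↥(heckeLatticeAlgebra p ∅) ⧸
        Ideal.map ((latticeRestrictHom p ∅).toRingHom.comp (heckeEvalForms p 2))
          (eisensteinIdeal p)) =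
      eisensteinNumerator p := by
  have : NeZero p := ⟨(Fact.out : p.Prime).ne_zero⟩
  exact card_eq_of_bounds p
    (cong_eisensteinNumerator_of_lift p (fun ψ hψ => exists_parabolic_lift p _ ψ hψ))
    (fun l a hl ha hc => upper_bound p l a hl ha hc)

end Fermat.Agent.S16
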