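import Fermat.Statements.S23
import Fermat.Agent.S23.IntegralOfGalois
import Fermat.Agent.S23.Galois
import Fermat.Agent.S23.DeltaN

set_option autoImplicit false
open CuspForm

namespace Fermat.Agent.S23

open UpperHalfPlane ModularForm CongruenceSubgroup SlashInvariantForm in
open scoped MatrixGroups ModularForm in
/-- The translates of `Δ(Nz)` by nontrivial cosets of `Γ₀(N)` differ from `Δ(Nz)`. -/
theorem quotientFunc_deltaN_ne (N : ℕ) [NeZero N]
    (q : 𝒮ℒ ⧸ (Gamma0 N : Subgroup (GL (Fin 2) ℝ)).subgroupOf 𝒮ℒ)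
    (hq : q ≠ baseCoset (Gamma0 N : Subgroup (GL (Fin 2) ℝ))) :
    quotientFunc (deltaN N) q ≠ ⇑(deltaN N) := by
  induction q using Quotient.inductionOn with
  | h r =>
    obtain ⟨r, hr⟩ := r
    obtain ⟨γ, hγr⟩ := hr
    rw [quotientFunc_mk]
    have hγ : γ⁻¹ ∉ Gamma0 N := by
      intro hmem
      apply hq
      have hmem' : γ ∈ Gamma0 N := by simpa using inv_mem hmem
      change (QuotientGroup.mk _ : 𝒮ℒ ⧸ _) = QuotientGroup.mk 1
      rw [QuotientGroup.eq, Subgroup.mem_subgroupOf]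
      simp only [Subgroup.coe_inv, mul_one]
      rw [← hγr]
      exact inv_mem (Subgroup.mem_map_of_mem _ hmem')
    have h := deltaN_slash_ne N γ⁻¹ hγ
    rw [ModularForm.SL_slash] at h
    have e : ((⟨r, ⟨γ, hγr⟩⟩ : 𝒮ℒ).val)⁻¹ = Matrix.SpecialLinearGroup.mapGL ℝ γ⁻¹ := by
      rw [map_inv, hγr]
    rw [e]
    exact h

/-- Galois stability of `S₂(Γ₀(N))`. -/
theorem galoisStable (N : ℕ) [NeZero N] : GaloisStable N := by
  intro f σ
  obtain ⟨g, hg⟩ := exists_conj_of (deltaN N) (σ : ℂ →+* ℂ) (map_qExpansion_deltaN N _)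
    (quotientFunc_deltaN_ne N) f
  exact ⟨g, fun n => by simp [ModularFormClass.qCoeff, hg]⟩

theorem result (N : ℕ) [NeZero N] : CuspForm.HasIntegralStructure N 2 := by
  exact hasIntegralStructure_of_galoisStable N (galoisStable N)

end Fermat.Agent.S23
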