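import Fermat.Statements.S18
import Fermat.Agent.S18.Assembly
import Fermat.Agent.S18.CTModularFinal
import Fermat.Agent.S18.GenusMain

set_option autoImplicit false
set_option synthInstance.maxHeartbeats 400000
set_option maxHeartbeats 1600000
open ModularCurve

namespace Fermat.Agent.S18

theorem result (N : ℕ) [NeZero N] {ℓ : ℕ}
    [Fact ℓ.Prime] (hℓN : ¬ ℓ ∣ N) (A : ValuationSubring (AlgebraicClosure ℚ)) (hA : A.LiesOverPrime ℓ)
    (h : ModularCurve.ReductionInputsModL A N) (m : ℕ) (hm : ¬ ℓ ∣ m) (z : ModularCurve.JZero N)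
    (hmz : m • z = 0) (hz : ModularCurve.reductionModL A N z = 0) :
    z = 0 := by
  have hℓ : ℓ.Prime := Fact.out
  haveI : NeZero (tameLevel N ℓ) := ⟨Descent.tameLevel_ne_zero N ℓ⟩
  have hCT : CTModular A (tameLevel N ℓ) :=
    CTM.ctModular_of_curveRR (tameLevel N ℓ) hℓ (CTM.not_dvd_tameLevel N hℓ hℓN) A hA
      (CTM.one_lt_tameLevel N ℓ) (GenusFin.exists_genus_tame N hℓ hℓN A hA)
  exact s18_of_ct N hℓ hℓN A hA hCT h m hm z hmz hz

end Fermat.Agent.S18
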