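import Fermat.Statements.S24
import Fermat.Agent.FF.Interface
import Fermat.Agent.FF.Interface2
import Fermat.Agent.FF.ARH
import Fermat.Agent.FF.CountingFinal
import Fermat.Agent.FF.CosetFinal
import Fermat.Agent.FF.ModData

set_option autoImplicit false
open ModularCurve

namespace Fermat.Agent.S24

theorem result (N : ℕ) [NeZero N]
    [AlgebraicCurve.HasCanonicalDivisor (K := AlgebraicClosure ℚ) (F := ↥(ModularCurve.modularFunctionFieldBar N))] :
    (AlgebraicCurve.genus (AlgebraicClosure ℚ) ↥(ModularCurve.modularFunctionFieldBar N) : ℚ)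
      = ModularCurve.genusFormula N := by
  exact Fermat.Agent.FF.genus_eq_genusFormula_of_interfaces N
    (Fermat.Agent.FF.rhStatement _ _)
    (Fermat.Agent.FF.modularRamification_of N (Fermat.Agent.FF.H6.countingStatement _ _)
      (Fermat.Agent.FF.modularOrdData N))
    (Fermat.Agent.FF.cosetCounts N)

end Fermat.Agent.S24
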