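import Fermat.Statements.S28
import Fermat.Agent.S28.Assembly
import Fermat.Agent.S28.Bridge
import Fermat.Agent.S28.Core
import Fermat.Agent.S28.Gen

/-!
# S28 (Igusa): the base change of the Igusa model of `X₀(N)` over `ℤ_(ℓ)` to a field of
characteristic `ℓ ∤ N` is integral.

Assembly of the pieces in `Fermat/Agent/S28/`:
* `core` (83-P10): `j_N mod ℓ` has degree `ψ(N)` over `𝔽_ℓ(j)` (modular units + LEMMA K);
* `gen` (83-P2): the full function field is generated by `j, j_N` with degree `ψ(N)`;
* `exists_reduction` (83-P11..P13): each chart algebra reduces into `𝔽_ℓ((q))` with kernel `(ℓ)`;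
* `igusa_isIntegral_of_reductions` (83-P3, P4, P14): tensor domain + scheme glue.
-/

set_option autoImplicit false
open AlgebraicGeometry CategoryTheory CategoryTheory.Limits ModularCurve ModularCurve.IgusaScheme
noncomputable section
set_option autoImplicit false
open ModularCurve ModularCurve.IgusaScheme

namespace Fermat.Agent.S28

set_option maxHeartbeats 4000000 in
set_option synthInstance.maxHeartbeats 400000 in
theorem result
    (N : ℕ) [NeZero N] (ℓ : ℕ) [Fact ℓ.Prime] (hℓN : ¬ ℓ ∣ N)
    (K : Type) [Field K] [CharP K ℓ] [Algebra ↥(GaloisRep.ratLocalizedAt ℓ) K] :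
    IsIntegral ↑(pullback (igusaTo N ℓ)
      (Spec.map (CommRingCat.ofHom (algebraMap ↥(GaloisRep.ratLocalizedAt ℓ) K)))) := by
  exact igusa_isIntegral_of_reductions N ℓ K
    (fun S hS => exists_reduction N ℓ (core ℓ N hℓN) (gen N) S hS)

end Fermat.Agent.S28
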