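import Fermat.Statements.S51
import Fermat.Agent.S51.Assembly
import Fermat.Agent.S51.Descent
import Fermat.Agent.S51.Three
import Fermat.Agent.S51.FiveFinal

set_option autoImplicit false
open WeierstrassCurve WeierstrassCurve.Affine WeierstrassCurve.Affine.Point
open CuspForm ModularFormClass UpperHalfPlane
open WeierstrassCurve

namespace Fermat.Agent.S51

theorem result (W : WeierstrassCurve ℤ) (hΔ : W.Δ ≠ 0) (hW : W.IsSemistableModel) : W.ModRepIsIrreducible 3 ∨ W.ModRepIsIrreducible 5 := by
  exact s51_of_parts W hΔ hW (exists_h_of_reducible_three W hΔ)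
    (exists_g_of_reducible_five W hΔ) rational_points_x

end Fermat.Agent.S51
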