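import Fermat.Statements.S53
import Fermat.Agent.S53.Tangent
import Fermat.Agent.S53.UnivLift
import Fermat.Agent.S53.UnivExists
import Fermat.Agent.S53.Universal

set_option autoImplicit false
set_option autoImplicit false
open GaloisRep

namespace Fermat.Agent.S53

theorem result
    (𝒪 : Type) [CommRing 𝒪] [IsDomain 𝒪] [IsDiscreteValuationRing 𝒪]
    [IsAdicComplete (IsLocalRing.maximalIdeal 𝒪) 𝒪] [Finite (IsLocalRing.ResidueField 𝒪)]
    (ρbar : ResidualGaloisRep (IsLocalRing.ResidueField 𝒪))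
    (𝒟 : ∀ ⦃A : Type⦄ [CommRing A] [IsLocalRing A] [Algebra 𝒪 A], GaloisRepAdic A → Prop)
    (habs : ρbar.IsAbsolutelyIrreducible)
    (h𝒟 : GaloisRep.IsDeformationCondition 𝒪 𝒟)
    (hbar : 𝒟 (GaloisRepAdic.ofResidualGaloisRep ρbar))
    (hfin : GaloisRep.TangentFinite 𝒪 ρbar 𝒟) :
    Nonempty (GaloisRep.DeformationRingData 𝒪 ρbar 𝒟) := by
  obtain ⟨S⟩ := exists_setup habs h𝒟 hbar hfin
  obtain ⟨r, hr⟩ := S.exists_univLift
  have := S.R_isAdicComplete
  exact ⟨{
    R := S.R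
    residue_surjective := TestAlg.residue_surjective
    absIrr := habs
    ρ := ofMat r hr.cont
    isOfType := S.univLift_isD hr
    residual_isEquiv := residual_ofMat ρbar S.bb r hr.cont hr.lift
    universal := by
      intro A _ _ _ _ _ _ hsurj ρA hDA hres
      obtain ⟨φ, hφ, he⟩ := S.univ_exists A hr hsurj ρA hDA hres
      refine ⟨φ, ⟨hφ, he⟩, ?_⟩
      rintro φ' ⟨hφ', he'⟩
      exact S.univ_unique A hr hsurj ρA φ' φ hφ' hφ he' he }⟩

end Fermat.Agent.S53
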